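import Mathlib.RingTheory.Localization.Away.Basic
import Mathlib.RingTheory.TensorProduct.Basic
import Mathlib.RingTheory.DedekindDomain.Basic
import Mathlib.RingTheory.Ideal.Maps
import Mathlib.LinearAlgebra.Span.Basic
import Mathlib.RingTheory.Finiteness.Defs
import Mathlib.Algebra.Polynomial.AlgebraMap

/-!
# Two-chart presentation of a curve with a marked point

`A` is the ring of `C ∖ {ε}`, `A₁` the ring of `C ∖ {zeros of x}`, `B` the ring of their
intersection; `x ∈ A` has a pole of order `d` at `ε` only, `y = 1/x ∈ A₁` vanishes only at `ε`.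
-/

set_option autoImplicit false

universe u

open Polynomial

namespace Fermat.Agent.Jac

/-- The algebraic data of a smooth proper curve with a marked point `ε`. -/
structure CurveData (k : Type u) [Field k] where
  A : Type u
  A₁ : Type u
  B : Type u
  [ringA : CommRing A]
  [ringA₁ : CommRing A₁]
  [ringB : CommRing B]
  [algA : Algebra k A]
  [algA₁ : Algebra k A₁]
  [algB : Algebra k B]
  [domA : IsDomain A]
  [domA₁ : IsDomain A₁]
  [dedA : IsDedekindDomain A]
  [dedA₁ : IsDedekindDomain A₁]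
  [ftA : Algebra.FiniteType k A]
  [ftA₁ : Algebra.FiniteType k A₁]
  i₀ : A →ₐ[k] B
  i₁ : A₁ →ₐ[k] B
  x : A
  y : A₁
  d : ℕ
  d_pos : 0 < d
  xy : i₀ x * i₁ y = 1
  awayX : @IsLocalization.Away A _ x B _ i₀.toRingHom.toAlgebra
  awayY : @IsLocalization.Away A₁ _ y B _ i₁.toRingHom.toAlgebra
  finite_x : (aeval x : k[X] →ₐ[k] A).toRingHom.Finite
  finite_y : (aeval y : k[X] →ₐ[k] A₁).toRingHom.Finite
  injective_x : Function.Injective (aeval x : k[X] →ₐ[k] A)
  injective_y : Function.Injective (aeval y : k[X] →ₐ[k] A₁)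
  /-- evaluation at `ε` -/
  ev : A₁ →ₐ[k] k
  ev_y : ev y = 0
  /-- a uniformiser at `ε` -/
  t : A₁
  ev_t : ev t = 0
  t_pow_d : t ^ d ∈ Ideal.span {y}
  /-- `1, t, ..., t^(d-1)` is a basis of `A₁/(y)` -/
  basis_jets : Function.Bijective fun c : Fin d → k =>
    Ideal.Quotient.mk (Ideal.span {y}) (∑ i, algebraMap k A₁ (c i) * t ^ (i : ℕ))
  /-- no nonconstant global functions -/
  global_const : ∀ (a : A) (a₁ : A₁), i₀ a = i₁ a₁ → ∃ r : k, a = algebraMap k A r

attribute [instance] CurveData.ringA CurveData.ringA₁ CurveData.ringB CurveData.algA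
  CurveData.algA₁ CurveData.algB CurveData.domA CurveData.domA₁ CurveData.dedA CurveData.dedA₁
  CurveData.ftA CurveData.ftA₁

end Fermat.Agent.Jac
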