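import Fermat.Prelude.Def_AlgebraicGeometry_NeronModelPropertyBundleCarrier
import Fermat.Agent.Jac.CurveData

/-!
# A curve presented by two charts
-/

set_option autoImplicit false

universe u

open CategoryTheory AlgebraicGeometry NeronModelInfra

namespace Fermat.Agent.Jac

variable {k : Type u} [Field k]

/-- Identification of a scheme over `k` with a section `ε` with a two-chart presentation. -/
structure CurveModel {C : Scheme.{u}} (c : C ⟶ Spec (CommRingCat.of k))
    (ε : SchemeHomOver (𝟙 (Spec (CommRingCat.of k))) c) where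
  D : CurveData.{u} k
  j₀ : Spec (CommRingCat.of D.A) ⟶ C
  j₁ : Spec (CommRingCat.of D.A₁) ⟶ C
  open₀ : IsOpenImmersion j₀
  open₁ : IsOpenImmersion j₁
  j₀_over : j₀ ≫ c = Spec.map (CommRingCat.ofHom (algebraMap k D.A))
  j₁_over : j₁ ≫ c = Spec.map (CommRingCat.ofHom (algebraMap k D.A₁))
  covers : Set.range j₀.base ∪ Set.range j₁.base = Set.univ
  inter : IsPullback (Spec.map (CommRingCat.ofHom D.i₀.toRingHom))
    (Spec.map (CommRingCat.ofHom D.i₁.toRingHom)) j₀ j₁
  ε_eq : ε.1 = Spec.map (CommRingCat.ofHom D.ev.toRingHom) ≫ j₁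

end Fermat.Agent.Jac
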